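import Fermat.Agent.LT.ThetaM.Cusp.Zero

/-!
# Zero coefficients of twisted series at inversion

Coset sums at `τ + w x` are series at `x` by Poisson summation.  For a prime `P` not containing the
period `n`, the zero coefficient over `L` is `#(𝓞/P)` times that over `L P`.
-/

set_option autoImplicit false
set_option linter.style.haveILetI false
set_option linter.unusedSectionVars false

noncomputable section

namespace FLTAgent.LT.ThetaM

open NumberField IsDedekindDomain MeasureTheory Complex Module FractionalIdeal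
open scoped Real nonZeroDivisors

variable {M E : Type} [Field M] [NumberField M] [Field E] [NumberField E] [Algebra M E]
variable (Q : Quad M E) [IsTotallyComplex M]

theorem exists_nat_mul_isIntegral {K : Type} [Field K] [NumberField K] (x : K) :
    ∃ n : ℕ, 0 < n ∧ IsIntegral ℤ ((n : K) * x) := by
  have halg : IsAlgebraic ℤ x :=
    (IsFractionRing.isAlgebraic_iff ℤ ℚ K).2 (Algebra.IsAlgebraic.isAlgebraic x)
  obtain ⟨z, hz, hi⟩ := halg.exists_integral_multiple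
  refine ⟨z.natAbs, Int.natAbs_pos.2 hz, ?_⟩
  rw [zsmul_eq_mul] at hi
  rcases Int.natAbs_eq z with h | h <;> rw [h] at hi
  · simpa using hi
  · simpa using hi.neg

theorem exists_nat_mul_isIntegral_fintype {K : Type} [Field K] [NumberField K] {ι : Type*}
    [Fintype ι] (x : ι → K) : ∃ n : ℕ, 0 < n ∧ ∀ i, IsIntegral ℤ ((n : K) * x i) := by
  classical
  choose n hn hi using fun i => exists_nat_mul_isIntegral (x i)
  refine ⟨∏ i, n i, Finset.prod_pos fun i _ => hn i, fun i => ?_⟩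
  rw [← Finset.prod_erase_mul _ _ (Finset.mem_univ i), Nat.cast_mul, mul_assoc]
  exact ((isIntegral_algebraMap (R := ℤ) (A := K)
    (x := ((∏ j ∈ Finset.univ.erase i, n j : ℕ) : ℤ)))).mul (hi i) |> fun h => by simpa using h

theorem isIntegral_intCast' {K : Type} [Field K] [NumberField K] (n : ℤ) :
    IsIntegral ℤ ((n : K)) := by
  simpa using isIntegral_algebraMap (R := ℤ) (A := K) (x := n)

variable (ξ : M)

/-- The dual lattice lies in a fractional ideal. -/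
theorem exists_dual_le (L : (FractionalIdeal (𝓞 E)⁰ E)ˣ) (hξ : ξ ≠ 0) :
    ∃ L' : (FractionalIdeal (𝓞 E)⁰ E)ˣ, ∀ u ∈ dualSet Q ξ L,
      u ∈ (L' : FractionalIdeal (𝓞 E)⁰ E) := by
  classical
  set b := basisOfFractionalIdeal E L
  set db := (bil Q ξ).dualBasis (bil_nondegenerate Q ξ hξ) b
  obtain ⟨n, hn, hint⟩ := exists_nat_mul_isIntegral_fintype fun i => db i
  have hn' : (n : E) ≠ 0 := Nat.cast_ne_zero.2 hn.ne'
  refine ⟨Units.mk0 (spanSingleton (𝓞 E)⁰ ((n : E)⁻¹))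
    (spanSingleton_ne_zero_iff.2 (inv_ne_zero hn')), fun u hu => ?_⟩
  have hcoef : ∀ i, ∃ k : ℤ, db.repr u i = k := fun i => by
    obtain ⟨k, hk⟩ := hu (b i) ((mem_span_basisOfFractionalIdeal E).1 (Submodule.subset_span ⟨i, rfl⟩))
    exact ⟨k, by rw [LinearMap.BilinForm.dualBasis_repr_apply, bil_comm, hk]⟩
  choose k hk using hcoef
  have hi : IsIntegral ℤ ((n : E) * u) := by
    conv => arg 2; rw [← db.sum_repr u, Finset.mul_sum]
    refine IsIntegral.sum _ fun i _ => ?_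
    rw [hk, Int.cast_smul_eq_zsmul, zsmul_eq_mul, mul_left_comm]
    exact (isIntegral_intCast' _).mul (hint i)
  refine (mem_spanSingleton _).2 ⟨⟨(n : E) * u, hi⟩, ?_⟩
  show ((n : E) * u) * (n : E)⁻¹ = u
  field_simp

variable (W : (InfinitePlace M → ℝ) → ℝ)

/-- A coset sum at `w x`. -/
def invSer (L : (FractionalIdeal (𝓞 E)⁰ E)ˣ) (r : E) (x : Xinf M) : ℂ :=
  ser Q W ξ L r (fun _ => 1) (invX x)

variable {W} (hW : IsTorusWeight W)
include hW

/-- Poisson: a coset sum at `w x` is a series at `x`, with zero coefficient independent of the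
coset. -/
theorem exists_zero_invSer (L : (FractionalIdeal (𝓞 E)⁰ E)ˣ) (hξ : ξ ≠ 0) :
    ∃ κ : ℂ, ∀ r : E, HasZero Q (invSer Q ξ W L r) κ := by
  classical
  obtain ⟨κ, hκ⟩ := exists_poisson Q ξ L hξ
  obtain ⟨L', hL'⟩ := exists_dual_le Q ξ L hξ
  refine ⟨((∫ s, W s : ℝ) : ℂ) * κ, fun r => ?_⟩
  let coef : Latt L' → ℂ := fun u =>
    if (u : E) ∈ dualSet Q ξ L then κ * eQ (bil Q ξ r u) else 0
  have hcoef : ∀ u, ‖coef u‖ ≤ ‖κ‖ := fun u => by
    simp only [coef]; split_ifs <;> simp [norm_eQ]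
  let P : Piece Q := ⟨ξ, hξ, L', 0, coef, ‖κ‖, hcoef, W, hW⟩
  have hz : P.zero = ((∫ s, W s : ℝ) : ℂ) * κ := by
    have h0 : (0 : E) ∈ dualSet Q ξ L := fun v _ => ⟨0, by simp⟩
    rw [Piece.zero]
    congr 1
    rw [tsum_eq_single (⟨0, zero_mem _⟩ : Latt L')]
    · show (if (0 : E) + 0 = 0 then coef ⟨0, zero_mem _⟩ else 0) = κ
      rw [if_pos (add_zero _)]
      simp only [coef, if_pos h0, map_zero, eQ_zero, mul_one]
    · intro u hu
      exact if_neg fun h => hu (Subtype.ext ((zero_add _).symm.trans h))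
  rw [← hz]
  refine (HasZero.of_piece P).congr fun x => ?_
  rw [invSer, Piece.val, ser_eq_integral Q ξ L r hW hξ (B := 1) (fun _ => norm_one.le),
    ser_eq_integral Q ξ L' 0 hW hξ hcoef]
  refine integral_congr_ae (Filter.Eventually.of_forall fun s => ?_)
  show _ * _ = (W s : ℂ) * ∑' v : Latt L', coef v * term Q ξ x s (0 + v)
  simp only [one_mul, zero_add]
  rw [← (hκ (invX x) s r).tsum_eq, invX_invX]
  congr 1
  set ι : dualSet Q ξ L → Latt L' := fun u => ⟨u, hL' u u.2⟩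
  have hι : Function.Injective ι := fun u u' h => Subtype.ext (congrArg Subtype.val h :)
  rw [← hι.tsum_eq (f := fun v : Latt L' => coef v * term Q ξ x s (v : E))]
  · refine tsum_congr fun u => ?_
    simp only [ι, coef, if_pos u.2, mul_assoc]
  · intro v hv
    by_contra h
    exact hv (by
      show coef v * _ = 0
      rw [show coef v = 0 from if_neg fun hm => h ⟨⟨v, hm⟩, rfl⟩, zero_mul])

omit hW in
/-- Splitting a series along representatives of cosets. -/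
theorem tsum_latt_split {ι : Type*} [Fintype ι] {L L' : (FractionalIdeal (𝓞 E)⁰ E)ˣ} (R : ι → E)
    (hmem : ∀ (i : ι) (l : Latt L'), R i + (l : E) ∈ (L : FractionalIdeal (𝓞 E)⁰ E))
    (hinj : ∀ i i', R i - R i' ∈ (L' : FractionalIdeal (𝓞 E)⁰ E) → i = i')
    (hsurj : ∀ v ∈ (L : FractionalIdeal (𝓞 E)⁰ E), ∃ i, v - R i ∈ (L' : FractionalIdeal (𝓞 E)⁰ E))
    {f : E → ℂ} (hf : Summable fun v : Latt L => f v) :
    ∑' v : Latt L, f v = ∑ i, ∑' l : Latt L', f (R i + l) := by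
  have hbij : Function.Bijective fun p : ι × Latt L' =>
      (⟨R p.1 + p.2, hmem p.1 p.2⟩ : Latt L) := by
    constructor
    · rintro ⟨i, l⟩ ⟨i', l'⟩ h
      have h' : R i + (l : E) = R i' + l' := congrArg Subtype.val h
      have hd : R i - R i' ∈ ((L' : FractionalIdeal (𝓞 E)⁰ E) : Submodule (𝓞 E) E) := by
        rw [show R i - R i' = (l' : E) - l by linear_combination h']
        exact Submodule.sub_mem ((L' : FractionalIdeal (𝓞 E)⁰ E) : Submodule (𝓞 E) E) l'.2 l.2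
      obtain rfl := hinj i i' (FractionalIdeal.mem_coe.1 hd)
      exact Prod.ext rfl (Subtype.ext (add_left_cancel h'))
    · rintro ⟨v, hv⟩
      obtain ⟨i, hi⟩ := hsurj v hv
      exact ⟨(i, ⟨_, hi⟩), Subtype.ext (add_sub_cancel _ _)⟩
  set e := Equiv.ofBijective _ hbij with he
  have h1 : ∀ p : ι × Latt L', ((e p : Latt L) : E) = R p.1 + (p.2 : E) := fun p => by
    rw [he, Equiv.ofBijective_apply]
  have hs : Summable fun p : ι × Latt L' => f (R p.1 + (p.2 : E)) :=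
    (hf.comp_injective e.injective).congr fun p => by rw [Function.comp_apply, h1]
  rw [← e.tsum_eq (fun v : Latt L => f (v : E))]
  simp only [h1]
  rw [hs.tsum_prod, tsum_fintype]

/-- The period lattice. -/
def scaleL (n : ℕ) (hn : 0 < n) (L : (FractionalIdeal (𝓞 E)⁰ E)ˣ) :
    (FractionalIdeal (𝓞 E)⁰ E)ˣ :=
  Units.mk0 (spanSingleton (𝓞 E)⁰ (n : E))
    (spanSingleton_ne_zero_iff.2 (Nat.cast_ne_zero.2 hn.ne')) * L

omit hW in
theorem mem_scaleL {n : ℕ} (hn : 0 < n) {L : (FractionalIdeal (𝓞 E)⁰ E)ˣ} {v : E} :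
    v ∈ (scaleL n hn L : FractionalIdeal (𝓞 E)⁰ E) ↔
      ∃ l ∈ (L : FractionalIdeal (𝓞 E)⁰ E), v = (n : E) * l := by
  show v ∈ spanSingleton (𝓞 E)⁰ (n : E) * (L : FractionalIdeal (𝓞 E)⁰ E) ↔ _
  rw [mem_singleton_mul]

omit hW in
theorem coe_scaleL {n : ℕ} (hn : 0 < n) (L : (FractionalIdeal (𝓞 E)⁰ E)ˣ) :
    (scaleL n hn L : FractionalIdeal (𝓞 E)⁰ E) =
      spanSingleton (𝓞 E)⁰ (n : E) * (L : FractionalIdeal (𝓞 E)⁰ E) := rfl

omit hW in
theorem smul_mem_fi {L : FractionalIdeal (𝓞 E)⁰ E} {v : E} (y : 𝓞 E) (hv : v ∈ L) :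
    (y : E) * v ∈ L := by
  have h := Submodule.smul_mem (L : Submodule (𝓞 E) E) y hv
  rwa [Algebra.smul_def] at h

omit hW in
/-- Representatives of `L / L P`. -/
theorem exists_reps_prime (P : Ideal (𝓞 E)) [P.IsMaximal] (L : (FractionalIdeal (𝓞 E)⁰ E)ˣ) :
    ∃ R : 𝓞 E ⧸ P → E, (∀ q, R q ∈ (L : FractionalIdeal (𝓞 E)⁰ E)) ∧
      (∀ q q', R q - R q' ∈ (L : FractionalIdeal (𝓞 E)⁰ E) * (P : FractionalIdeal (𝓞 E)⁰ E) →
        q = q') ∧
      ∀ v ∈ (L : FractionalIdeal (𝓞 E)⁰ E), ∃ q,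
        v - R q ∈ (L : FractionalIdeal (𝓞 E)⁰ E) * (P : FractionalIdeal (𝓞 E)⁰ E) := by
  set LP := (L : FractionalIdeal (𝓞 E)⁰ E) * (P : FractionalIdeal (𝓞 E)⁰ E)
  have hne : ¬ (L : FractionalIdeal (𝓞 E)⁰ E) ≤ LP := fun hle => by
    have h1 : (1 : FractionalIdeal (𝓞 E)⁰ E) ≤ (P : FractionalIdeal (𝓞 E)⁰ E) := by
      have := mul_le_mul' (le_refl ((L⁻¹ : (FractionalIdeal (𝓞 E)⁰ E)ˣ) :
        FractionalIdeal (𝓞 E)⁰ E)) hle
      rwa [Units.inv_mul, ← mul_assoc, Units.inv_mul, one_mul] at this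
    exact (inferInstance : P.IsMaximal).ne_top
      (top_le_iff.1 ((coeIdeal_le_coeIdeal E).1 (by rwa [coeIdeal_top])))
  obtain ⟨a, ha, haP⟩ := SetLike.not_le_iff_exists.1 hne
  have hPle : ∀ y ∈ P, (y : E) * a ∈ LP := fun y hy => by
    rw [mul_comm]; exact mul_mem_mul ha (mem_coeIdeal_of_mem _ hy)
  have hJ : ∀ y : 𝓞 E, (y : E) * a ∈ LP → y ∈ P := by
    intro y hy
    by_contra hyP
    obtain ⟨b, i, hiP, hb⟩ := (inferInstance : P.IsMaximal).exists_inv hyP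
    refine haP ?_
    have e : a = (b : E) * ((y : E) * a) + (i : E) * a := by
      rw [← mul_assoc, ← add_mul, ← map_mul, ← map_add, hb, map_one, one_mul]
    rw [e]
    exact Submodule.add_mem _ (smul_mem_fi b hy) (hPle i hiP)
  refine ⟨fun q => ((Quotient.out q : 𝓞 E) : E) * a, fun q => smul_mem_fi _ ha, fun q q' h => ?_,
    fun v hv => ?_⟩
  · rw [← sub_mul, ← map_sub] at h
    rw [← Ideal.Quotient.mk_out q, ← Ideal.Quotient.mk_out q']
    exact Ideal.Quotient.eq.2 (hJ _ h)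
  obtain ⟨b, hb, hbP⟩ : ∃ b ∈ ((L⁻¹ : (FractionalIdeal (𝓞 E)⁰ E)ˣ) : FractionalIdeal (𝓞 E)⁰ E),
      a * b ∉ (P : FractionalIdeal (𝓞 E)⁰ E) := by
    by_contra hall
    push Not at hall
    refine haP ?_
    have hle : spanSingleton (𝓞 E)⁰ a * ((L⁻¹ : (FractionalIdeal (𝓞 E)⁰ E)ˣ) :
        FractionalIdeal (𝓞 E)⁰ E) ≤ (P : FractionalIdeal (𝓞 E)⁰ E) :=
      spanSingleton_mul_le_iff.2 hall
    have := mul_le_mul' (le_refl (L : FractionalIdeal (𝓞 E)⁰ E)) hle
    rw [mul_left_comm, Units.mul_inv, mul_one, spanSingleton_le_iff_mem] at this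
    exact this
  obtain ⟨y, hy⟩ : ∃ y : 𝓞 E, (y : E) = a * b := by
    have := mul_mem_mul ha hb
    rw [Units.mul_inv] at this
    exact (mem_one_iff _).1 this
  obtain ⟨c, i, hiP, hc⟩ := (inferInstance : P.IsMaximal).exists_inv
    (fun h => hbP (hy ▸ mem_coeIdeal_of_mem _ h) : y ∉ P)
  obtain ⟨z, hz⟩ : ∃ z : 𝓞 E, (z : E) = v * b := by
    have := mul_mem_mul hv hb
    rw [Units.mul_inv] at this
    exact (mem_one_iff _).1 this
  refine ⟨Ideal.Quotient.mk P (c * z), ?_⟩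
  have hdiff : c * z - Quotient.out (Ideal.Quotient.mk P (c * z)) ∈ P :=
    Ideal.Quotient.eq.1 (Ideal.Quotient.mk_out _).symm
  have e : v - ((Quotient.out (Ideal.Quotient.mk P (c * z)) : 𝓞 E) : E) * a =
      (i : E) * v + ((c * z - Quotient.out (Ideal.Quotient.mk P (c * z)) : 𝓞 E) : E) * a := by
    have hcy : (c : E) * (a * b) + (i : E) = 1 := by rw [← hy, ← map_mul, ← map_add, hc, map_one]
    simp only [map_sub, map_mul, hz]
    linear_combination -v * hcy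
  rw [e]
  refine Submodule.add_mem _ ?_ (hPle _ hdiff)
  rw [mul_comm (i : E) v]
  exact mul_mem_mul hv (mem_coeIdeal_of_mem _ hiP)

/-- The zero coefficient for `L` from that for `L P`. -/
theorem zero_invSer_prime (P : Ideal (𝓞 E)) [P.IsMaximal]
    {L LP : (FractionalIdeal (𝓞 E)⁰ E)ˣ} (hξ : ξ ≠ 0)
    (hLP : (LP : FractionalIdeal (𝓞 E)⁰ E) =
      (L : FractionalIdeal (𝓞 E)⁰ E) * (P : FractionalIdeal (𝓞 E)⁰ E))
    {κ κ' : ℂ} (hκ : ∀ r : E, HasZero Q (invSer Q ξ W L r) κ)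
    (hκ' : ∀ r : E, HasZero Q (invSer Q ξ W LP r) κ') :
    κ = (Nat.card (𝓞 E ⧸ P) : ℂ) * κ' := by
  classical
  haveI : Finite (𝓞 E ⧸ P) := Ideal.finiteQuotientOfFreeOfNeBot _
    (Ideal.bot_lt_of_maximal P (RingOfIntegers.not_isField E)).ne'
  haveI := Fintype.ofFinite (𝓞 E ⧸ P)
  obtain ⟨R, hR, hinj, hsurj⟩ := exists_reps_prime P L
  have h := HasZero.sum (Q := Q) fun q => hκ' (R q)
  rw [Finset.sum_const, Finset.card_univ, nsmul_eq_mul, ← Nat.card_eq_fintype_card] at h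
  refine (hκ 0).unique (h.congr fun x => ?_)
  simp only [invSer, ser, zero_add, one_mul]
  refine tsum_latt_split (L := L) (L' := LP) R (fun q l => Submodule.add_mem _ (hR q) ?_)
    (fun q q' h => hinj q q' (hLP ▸ h)) (fun v hv => ?_)
    (f := fun v => termW Q W ξ (invX x) v) ?_
  · exact (hLP.le.trans ((mul_le_mul' le_rfl coeIdeal_le_one).trans (mul_one _).le)) l.2
  · obtain ⟨q, hq⟩ := hsurj v hv
    exact ⟨q, by rw [hLP]; exact hq⟩
  · simpa using Summable.of_norm (summable_norm_termW Q ξ L 0 hW hξ (invX x))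

omit hW in
theorem termW_translate_embF (x : Xinf M) (τ : M) (v : E) :
    termW Q W ξ (translate (RS.embF τ) x) v = termW Q W ξ x v * psi (τ * qF ξ v) := by
  rw [termW, termW, ← integral_mul_const]
  exact integral_congr_ae (Filter.Eventually.of_forall fun s => by
    simp only [term_translate]; ring)

omit hW in
include Q in
theorem psi_qF_eq {τ : M} {v w : E} (h : IsIntegral ℤ (τ * qF ξ v - τ * qF ξ w)) :
    psi (τ * qF ξ v) = psi (τ * qF ξ w) := by
  rw [show τ * qF ξ v = (τ * qF ξ v - τ * qF ξ w) + τ * qF ξ w by ring, psi_add, psi_integral h,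
    one_mul]

/-- A twisted coset sum at `w x`. -/
def twSer (W : (InfinitePlace M → ℝ) → ℝ) (τ : M) (L : (FractionalIdeal (𝓞 E)⁰ E)ˣ) (β : E)
    (x : Xinf M) : ℂ :=
  ser Q W ξ L β (fun _ => 1) (translate (RS.embF τ) (invX x))

/-- The twisted zero coefficients over `L` and `L P`. -/
theorem exists_zero_twSer (P : Ideal (𝓞 E)) [P.IsMaximal]
    {L LP : (FractionalIdeal (𝓞 E)⁰ E)ˣ} (hξ : ξ ≠ 0)
    (hLP : (LP : FractionalIdeal (𝓞 E)⁰ E) =
      (L : FractionalIdeal (𝓞 E)⁰ E) * (P : FractionalIdeal (𝓞 E)⁰ E))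
    {n : ℕ} (hn : 0 < n) (hnP : (n : 𝓞 E) ∉ P) (τ : M) (β : E)
    (hper : ∀ v ∈ (L : FractionalIdeal (𝓞 E)⁰ E), ∀ l ∈ (L : FractionalIdeal (𝓞 E)⁰ E),
      IsIntegral ℤ (τ * qF ξ (β + v + (n : E) * l) - τ * qF ξ (β + v))) :
    ∃ Z : ℂ, HasZero Q (twSer Q ξ W τ L β) ((Nat.card (𝓞 E ⧸ P) : ℂ) * Z) ∧
      HasZero Q (twSer Q ξ W τ LP β) Z := by
  classical
  haveI : NeZero n := ⟨hn.ne'⟩
  obtain ⟨κ, hκ⟩ := exists_zero_invSer Q ξ hW (scaleL n hn L) hξ
  obtain ⟨κ', hκ'⟩ := exists_zero_invSer Q ξ hW (scaleL n hn LP) hξ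
  have hκκ : κ = (Nat.card (𝓞 E ⧸ P) : ℂ) * κ' := zero_invSer_prime Q ξ hW P hξ
    (by rw [coe_scaleL, coe_scaleL, hLP, mul_assoc]) hκ hκ'
  set ι := Free.ChooseBasisIndex ℤ (LP : FractionalIdeal (𝓞 E)⁰ E)
  set R : (ι → ZMod n) → E := fun c => (lattEquivInt LP (fun i => ((c i).val : ℤ)) : E)
  have hLPle : (LP : FractionalIdeal (𝓞 E)⁰ E) ≤ L := by
    rw [hLP]; exact (mul_le_mul' le_rfl coeIdeal_le_one).trans (mul_one _).le
  obtain ⟨p, k, hp, hpk⟩ : ∃ p k : 𝓞 E, p ∈ P ∧ p + k * (n : 𝓞 E) = 1 := by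
    obtain ⟨k, p, hp, h⟩ := (inferInstance : P.IsMaximal).exists_inv hnP
    exact ⟨p, k, hp, by rw [add_comm]; exact h⟩
  have hpk' : (p : E) + (k : E) * (n : E) = 1 := by
    have := congrArg (fun o : 𝓞 E => (o : E)) hpk
    simpa using this
  -- `n L ∩ L P = n L P`
  have hcap : ∀ v ∈ (LP : FractionalIdeal (𝓞 E)⁰ E),
      v ∈ (scaleL n hn L : FractionalIdeal (𝓞 E)⁰ E) →
      v ∈ (scaleL n hn LP : FractionalIdeal (𝓞 E)⁰ E) := by
    intro v hv hv'
    obtain ⟨l, hl, rfl⟩ := (mem_scaleL hn).1 hv'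
    refine (mem_scaleL hn).2 ⟨l, ?_, rfl⟩
    rw [show l = (p : E) * l + (k : E) * ((n : E) * l) by linear_combination -l * hpk']
    refine Submodule.add_mem _ ?_ (smul_mem_fi k hv)
    rw [hLP, mul_comm (p : E)]
    exact mul_mem_mul hl (mem_coeIdeal_of_mem _ hp)
  have hinjLP : ∀ c c', R c - R c' ∈ (scaleL n hn LP : FractionalIdeal (𝓞 E)⁰ E) → c = c' := by
    intro c c' h
    obtain ⟨l, hl, he⟩ := (mem_scaleL hn).1 h
    obtain ⟨u, hu⟩ := (lattEquivInt LP).surjective ⟨l, hl⟩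
    have hu' : (lattEquivInt LP u : E) = l := congrArg Subtype.val hu
    have e : lattEquivInt LP (fun i => ((c i).val : ℤ)) =
        lattEquivInt LP (fun i => ((c' i).val : ℤ) + (n : ℤ) * u i) := by
      refine Subtype.ext ?_
      show R c = _
      rw [coe_lattEquivInt]
      simp only [add_smul, mul_smul, Finset.sum_add_distrib, ← Finset.smul_sum]
      rw [← coe_lattEquivInt, ← coe_lattEquivInt, hu', zsmul_eq_mul, Int.cast_natCast, ← he,
        add_sub_cancel]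
    funext i
    have := congrArg (fun z : ℤ => (z : ZMod n)) (congrFun ((lattEquivInt LP).injective e) i)
    simpa using this
  have hsurjLP : ∀ v ∈ (LP : FractionalIdeal (𝓞 E)⁰ E),
      ∃ c, v - R c ∈ (scaleL n hn LP : FractionalIdeal (𝓞 E)⁰ E) := by
    intro v hv
    obtain ⟨u, hu⟩ := (lattEquivInt LP).surjective ⟨v, hv⟩
    have hu' : (lattEquivInt LP u : E) = v := congrArg Subtype.val hu
    refine ⟨fun i => (u i : ZMod n), (mem_scaleL hn).2 ⟨(lattEquivInt LP fun i => u i / (n : ℤ) : E),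
      (lattEquivInt LP _).2, ?_⟩⟩
    simp only [R, ← hu', coe_lattEquivInt, ← Finset.sum_sub_distrib, Finset.mul_sum, ← sub_smul,
      ZMod.val_intCast]
    refine Finset.sum_congr rfl fun i _ => ?_
    rw [show u i - u i % (n : ℤ) = (n : ℤ) * (u i / (n : ℤ)) by rw [Int.emod_def]; ring, mul_smul,
      zsmul_eq_mul, Int.cast_natCast]
  have hRmem : ∀ c, R c ∈ (LP : FractionalIdeal (𝓞 E)⁰ E) := fun c => (lattEquivInt LP _).2
  have hscale : ∀ {L₁ : (FractionalIdeal (𝓞 E)⁰ E)ˣ} {v : E},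
      v ∈ (scaleL n hn L₁ : FractionalIdeal (𝓞 E)⁰ E) → v ∈ (L₁ : FractionalIdeal (𝓞 E)⁰ E) := by
    intro L₁ v hv
    obtain ⟨l, hl, rfl⟩ := (mem_scaleL hn).1 hv
    simpa using smul_mem_fi (n : 𝓞 E) hl
  -- both series split with the same representatives
  have key : ∀ L₁ : (FractionalIdeal (𝓞 E)⁰ E)ˣ,
      (L₁ : FractionalIdeal (𝓞 E)⁰ E) ≤ L →
      (LP : FractionalIdeal (𝓞 E)⁰ E) ≤ L₁ →
      (∀ c c', R c - R c' ∈ (scaleL n hn L₁ : FractionalIdeal (𝓞 E)⁰ E) → c = c') →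
      (∀ v ∈ (L₁ : FractionalIdeal (𝓞 E)⁰ E), ∃ c,
        v - R c ∈ (scaleL n hn L₁ : FractionalIdeal (𝓞 E)⁰ E)) →
      ∀ κ₁, (∀ r : E, HasZero Q (invSer Q ξ W (scaleL n hn L₁) r) κ₁) →
        HasZero Q (twSer Q ξ W τ L₁ β) (∑ c, psi (τ * qF ξ (β + R c)) * κ₁) := by
    intro L₁ hle hge hi hs κ₁ h₁
    refine (HasZero.sum fun c => (h₁ (β + R c)).const_mul (psi (τ * qF ξ (β + R c)))).congr
      fun x => ?_
    simp only [twSer, invSer, ser, one_mul]
    rw [tsum_latt_split (L := L₁) (L' := scaleL n hn L₁) R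
      (fun c l => Submodule.add_mem _ (hge (hRmem c)) (hscale l.2)) hi hs
      (f := fun v => termW Q W ξ (translate (RS.embF τ) (invX x)) (β + v))
      (Summable.of_norm (summable_norm_termW Q ξ L₁ β hW hξ _))]
    refine Finset.sum_congr rfl fun c _ => ?_
    rw [← tsum_mul_left]
    refine tsum_congr fun l => ?_
    obtain ⟨m, hm, hl⟩ := (mem_scaleL hn).1 l.2
    rw [termW_translate_embF, ← add_assoc, mul_comm]
    congr 1
    rw [hl]
    exact psi_qF_eq Q ξ (hper _ (hle (hge (hRmem c))) _ (hle hm))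
  refine ⟨∑ c, psi (τ * qF ξ (β + R c)) * κ', ?_, key LP hLPle le_rfl hinjLP hsurjLP κ' hκ'⟩
  have hsurjL : ∀ v ∈ (L : FractionalIdeal (𝓞 E)⁰ E),
      ∃ c, v - R c ∈ (scaleL n hn L : FractionalIdeal (𝓞 E)⁰ E) := by
    intro v hv
    obtain ⟨c, hc⟩ := hsurjLP ((p : E) * v) (by
      rw [hLP, mul_comm (p : E)]; exact mul_mem_mul hv (mem_coeIdeal_of_mem _ hp))
    refine ⟨c, ?_⟩
    rw [show v - R c = ((p : E) * v - R c) + (n : E) * ((k : E) * v) by
      linear_combination -v * hpk']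
    refine Submodule.add_mem _ ?_ ((mem_scaleL hn).2 ⟨_, smul_mem_fi k hv, rfl⟩)
    obtain ⟨l, hl, he⟩ := (mem_scaleL hn).1 hc
    exact (mem_scaleL hn).2 ⟨l, hLPle hl, he⟩
  have h := key L le_rfl hLPle
    (fun c c' h => hinjLP c c' (hcap _ (Submodule.sub_mem _ (hRmem c) (hRmem c')) h)) hsurjL κ hκ
  simp only [hκκ] at h
  rw [Finset.mul_sum]
  simpa only [mul_left_comm] using h

end FLTAgent.LT.ThetaM
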