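import Fermat.Agent.LT.ThetaM.Cusp.Cosets
import Fermat.Agent.LT.ThetaM.TransformAux

/-!
# Cancellation of the zero coefficient at a cusp

For a split prime `P` with conjugate `P'`, the series of the classes of `r` and `r P' / P` have the
same zero coefficient, so the theta function gets multiplied by `chi P' / chi P ≠ 1` without
changing: its zero coefficient vanishes.
-/

set_option autoImplicit false
set_option linter.style.haveILetI false
set_option linter.unusedSectionVars false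

noncomputable section

namespace FLTAgent.LT.ThetaM

open NumberField IsDedekindDomain MeasureTheory Complex Module FractionalIdeal
open scoped Real nonZeroDivisors

variable {M E : Type} [Field M] [NumberField M] [Field E] [NumberField E] [Algebra M E]

/-- A positive integer carrying a fractional ideal into the integers. -/
theorem exists_nat_mul_le_one (I : FIM M) :
    ∃ n : ℕ, 0 < n ∧ spanSingleton (𝓞 M)⁰ (n : M) * I ≤ 1 := by
  obtain ⟨d, hd, hint⟩ := I.isFractional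
  refine ⟨Ideal.absNorm (Ideal.span {d}), Nat.pos_of_ne_zero fun h => ?_,
    spanSingleton_mul_le_iff.2 fun z hz => ?_⟩
  · rw [Ideal.absNorm_eq_zero_iff, Ideal.span_singleton_eq_bot] at h
    exact nonZeroDivisors.ne_zero hd h
  obtain ⟨k, hk⟩ := Ideal.mem_span_singleton'.1 (Ideal.absNorm_mem (Ideal.span {d}))
  obtain ⟨l, hl⟩ := hint z hz
  rw [Algebra.smul_def] at hl
  refine (mem_one_iff _).2 ⟨k * l, ?_⟩
  rw [show ((Ideal.absNorm (Ideal.span {d}) : ℕ) : M) = algebraMap (𝓞 M) M (k * d) by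
    rw [hk, map_natCast], map_mul, map_mul, hl, mul_assoc]

theorem finsum_gen_congr {p p' : M → Prop} (e : p = p') (s : Setoid {ξ // p ξ})
    (s' : Setoid {ξ // p' ξ}) (hs : ∀ x y : {ξ // p ξ},
      s.r x y ↔ s'.r ⟨x.1, e ▸ x.2⟩ ⟨y.1, e ▸ y.2⟩) (F : M → ℂ) :
    ∑ᶠ q : Quotient s, F (Quotient.out q).1 = ∑ᶠ q : Quotient s', F (Quotient.out q).1 := by
  subst e
  obtain rfl : s = s' := Setoid.ext hs
  rfl

variable [IsTotallyComplex M]

theorem twSer_eq_of_sub_mem (Q : Quad M E) (ξ : M) (W : (InfinitePlace M → ℝ) → ℝ) (τ : M)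
    (L : (FIE E)ˣ) {β β' : E} (h : β' - β ∈ (L : FIE E)) (x : Xinf M) :
    twSer Q ξ W τ L β x = twSer Q ξ W τ L β' x := by
  let e : Latt L ≃ Latt L :=
    { toFun := fun v => ⟨(β' - β) + v, Submodule.add_mem _ h v.2⟩
      invFun := fun v => ⟨v - (β' - β), Submodule.sub_mem (L : Submodule (𝓞 E) E) v.2 h⟩
      left_inv := fun v => Subtype.ext (add_sub_cancel_left _ _)
      right_inv := fun v => Subtype.ext (add_sub_cancel _ _) }
  simp only [twSer, ser, one_mul]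
  rw [← e.tsum_eq]
  exact tsum_congr fun v => congrArg _ (show β + ((β' - β) + (v : E)) = β' + v by ring)

namespace Data

variable (D : Data M E) {W : (InfinitePlace M → ℝ) → ℝ}

/-- The series of all generators for one fractional ideal. -/
def classSum (W : (InfinitePlace M → ℝ) → ℝ) (a : (FIM M)ˣ) (r : D.primeGroup) (x : Xinf M) : ℂ :=
  ∑ᶠ q : D.Xi a (r : (FIE E)ˣ), D.part W a (r : (FIE E)ˣ) q x

theorem theta_eq_sum (W : (InfinitePlace M → ℝ) → ℝ) (R : D.Cl → D.primeGroup) (a : (FIM M)ˣ)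
    [Fintype D.Cl] (x : Xinf M) :
    D.theta W R a x = ∑ c, (D.chiCl c)⁻¹ * D.classSum W a (R c) x :=
  finsum_eq_sum_of_fintype _

/-- The inverted and translated point. -/
def twX (τ : M) (x : Xinf M) : Xinf M := translate (RS.embF τ) (invX x)

/-- Two classes differing by `P' / P` have the same zero coefficient. -/
theorem exists_zero_pair (hW : IsTorusWeight W) (a : (FIM M)ˣ) (τ : M) {n : ℕ} (hn : 0 < n)
    (hnτ : spanSingleton (𝓞 M)⁰ τ * spanSingleton (𝓞 M)⁰ (n : M) ≤ (a : FIM M))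
    (P P' : Ideal (𝓞 E)) [P.IsMaximal] [P'.IsMaximal] (hP : P ⊔ D.f = ⊤) (hP' : P' ⊔ D.f = ⊤)
    (hcard : Nat.card (𝓞 E ⧸ P) = Nat.card (𝓞 E ⧸ P')) (hnP : (n : 𝓞 E) ∉ P)
    (hnP' : (n : 𝓞 E) ∉ P') (hconj : D.conjId P = P') (hconj' : D.conjId P' = P)
    (r r' : D.primeGroup)
    (hr : (r' : (FIE E)ˣ) * D.unitI P hP = (r : (FIE E)ˣ) * D.unitI P' hP') :
    ∃ Z : ℂ, HasZero D.toQuad (fun x => D.classSum W a r (twX τ x)) Z ∧
      HasZero D.toQuad (fun x => D.classSum W a r' (twX τ x)) Z := by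
  classical
  set r₀ : D.primeGroup := r * ⟨D.unitI P' hP', D.unitI_mem P' hP'⟩ with hr₀
  have e₀ : ((r₀ : (FIE E)ˣ) : FIE E) = ((r : (FIE E)ˣ) : FIE E) * (P' : FIE E) := rfl
  have e₀' : ((r₀ : (FIE E)ˣ) : FIE E) = ((r' : (FIE E)ˣ) : FIE E) * (P : FIE E) := by
    show (((r : (FIE E)ˣ) * D.unitI P' hP' : (FIE E)ˣ) : FIE E) = _
    rw [← hr]
    rfl
  have hle : ((r₀ : (FIE E)ˣ) : FIE E) ≤ ((r : (FIE E)ˣ) : FIE E) := by
    rw [e₀]; exact (mul_le_mul' le_rfl coeIdeal_le_one).trans (mul_one _).le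
  have hle' : ((r₀ : (FIE E)ˣ) : FIE E) ≤ ((r' : (FIE E)ˣ) : FIE E) := by
    rw [e₀']; exact (mul_le_mul' le_rfl coeIdeal_le_one).trans (mul_one _).le
  have hP0 : (P : FIE E) ≠ 0 := coeIdeal_ne_zero.2 (D.ne_bot_of_sup hP)
  have hP0' : (P' : FIE E) ≠ 0 := coeIdeal_ne_zero.2 (D.ne_bot_of_sup hP')
  -- the generators are the same
  have hgen : ∀ ξ : M, D.IsGen a (r : (FIE E)ˣ) ξ ↔ D.IsGen a (r' : (FIE E)ˣ) ξ := fun ξ => by
    have hN : ((r : (FIE E)ˣ) : FIE E) * D.conjI ((r : (FIE E)ˣ) : FIE E) =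
        ((r' : (FIE E)ˣ) : FIE E) * D.conjI ((r' : (FIE E)ˣ) : FIE E) := by
      refine mul_right_cancel₀ (mul_ne_zero hP0 hP0') ?_
      have h1 := congrArg D.conjI (e₀.symm.trans e₀')
      rw [map_mul, map_mul, D.conjI_coe, D.conjI_coe,
        show P'.map (D.conjO : 𝓞 E →+* 𝓞 E) = P from hconj',
        show P.map (D.conjO : 𝓞 E →+* 𝓞 E) = P' from hconj] at h1
      calc _ = ((r : (FIE E)ˣ) : FIE E) * (P' : FIE E) *
            (D.conjI ((r : (FIE E)ˣ) : FIE E) * (P : FIE E)) := by ring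
        _ = _ := by rw [e₀.symm.trans e₀', h1]; ring
    rw [IsGen, IsGen, hN]
  have hcongr : ∀ F : M → ℂ,
      ∑ᶠ q : D.Xi a (r : (FIE E)ˣ), F (Quotient.out (s := D.genSetoid a _) q).1 =
        ∑ᶠ q : D.Xi a (r' : (FIE E)ˣ), F (Quotient.out (s := D.genSetoid a _) q).1 :=
    finsum_gen_congr (funext fun ξ => propext (hgen ξ)) (D.genSetoid a _) (D.genSetoid a _)
      fun _ _ => Iff.rfl
  -- one generator
  obtain ⟨β, hβ, -⟩ := D.exists_beta r₀.2
  have hβr : β ∈ D.vset (r : (FIE E)ˣ) := ⟨hle hβ.1, hβ.2⟩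
  have hβr' : β ∈ D.vset (r' : (FIE E)ˣ) := ⟨hle' hβ.1, hβ.2⟩
  have hlat : ∀ (s : D.primeGroup), (D.lat (s : (FIE E)ˣ) : FIE E) ≤ ((s : (FIE E)ˣ) : FIE E) :=
    fun s => (mul_le_mul' coeIdeal_le_one le_rfl).trans (one_mul _).le
  have hJ : ((Ideal.span {(n : 𝓞 M)} : Ideal (𝓞 M)) : FIM M) = spanSingleton (𝓞 M)⁰ (n : M) := by
    rw [coeIdeal_span_singleton, map_natCast]
  have hper : ∀ (s : D.primeGroup) (ξ : M), D.IsGen a (s : (FIE E)ˣ) ξ →
      β ∈ ((s : (FIE E)ˣ) : FIE E) → ∀ v ∈ (D.lat (s : (FIE E)ˣ) : FIE E),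
      ∀ l ∈ (D.lat (s : (FIE E)ˣ) : FIE E),
      IsIntegral ℤ (τ * qF ξ (β + v + (n : E) * l) - τ * qF ξ (β + v)) := by
    intro s ξ hξ hβs v hv l hl
    have hm : (n : E) * l ∈ extI M E ((Ideal.span {(n : 𝓞 M)} : Ideal (𝓞 M)) : FIM M) *
        ((s : (FIE E)ˣ) : FIE E) := by
      refine mul_mem_mul ?_ (hlat s hl)
      rw [← map_natCast (algebraMap M E) n, hJ]
      exact algebraMap_mem_extI (mem_spanSingleton_self _ _)
    have h := D.qF_sub_le hξ (v := β + v) (Submodule.add_mem _ hβs (hlat s hv)) hm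
    rw [hJ] at h
    have h2 : spanSingleton (𝓞 M)⁰ (τ * (qF ξ (β + v + (n : E) * l) - qF ξ (β + v))) *
        (a : FIM M) ≤ 1 * (a : FIM M) := by
      rw [one_mul, ← spanSingleton_mul_spanSingleton, mul_assoc]
      exact (mul_le_mul' le_rfl h).trans hnτ
    rw [mul_le_mul_iff_left₀ (zero_lt_iff.2 a.ne_zero), spanSingleton_le_iff_mem] at h2
    rw [← mul_sub]
    exact isIntegral_of_mem_one h2
  have key : ∀ ξ : M, D.IsGen a (r : (FIE E)ˣ) ξ → ∃ Z : ℂ,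
      HasZero D.toQuad (twSer D.toQuad ξ W τ (D.lat (r : (FIE E)ˣ))
        (D.exists_beta r.2).choose) Z ∧
      HasZero D.toQuad (twSer D.toQuad ξ W τ (D.lat (r' : (FIE E)ˣ))
        (D.exists_beta r'.2).choose) Z := by
    intro ξ hξ
    have hξ0 : ξ ≠ 0 := IsGen.ne_zero D hξ
    obtain ⟨Z₁, h₁, h₁'⟩ := exists_zero_twSer D.toQuad ξ hW P' (L := D.lat (r : (FIE E)ˣ))
      (LP := D.lat (r₀ : (FIE E)ˣ)) hξ0 (by
        show (D.f : FIE E) * _ = (D.f : FIE E) * _ * _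
        rw [e₀, mul_assoc]) hn hnP' τ β (hper r ξ hξ hβr.1)
    obtain ⟨Z₂, h₂, h₂'⟩ := exists_zero_twSer D.toQuad ξ hW P (L := D.lat (r' : (FIE E)ˣ))
      (LP := D.lat (r₀ : (FIE E)ˣ)) hξ0 (by
        show (D.f : FIE E) * _ = (D.f : FIE E) * _ * _
        rw [e₀', mul_assoc]) hn hnP τ β (hper r' ξ ((hgen ξ).1 hξ) hβr'.1)
    rw [h₂'.unique h₁', hcard] at h₂
    exact ⟨_, h₁.congr fun x => twSer_eq_of_sub_mem _ _ _ _ _
        (((D.exists_beta r.2).choose_spec.2 _).1 hβr) x,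
      h₂.congr fun x => twSer_eq_of_sub_mem _ _ _ _ _
        (((D.exists_beta r'.2).choose_spec.2 _).1 hβr') x⟩
  choose! Z hZ hZ' using key
  haveI := Fintype.ofFinite (D.Xi a (r : (FIE E)ˣ))
  haveI := Fintype.ofFinite (D.Xi a (r' : (FIE E)ˣ))
  refine ⟨∑ᶠ q : D.Xi a (r : (FIE E)ˣ), Z (Quotient.out (s := D.genSetoid a _) q).1, ?_, ?_⟩
  · rw [finsum_eq_sum_of_fintype]
    refine (HasZero.sum fun q : D.Xi a (r : (FIE E)ˣ) =>
      hZ _ (Quotient.out (s := D.genSetoid a (r : (FIE E)ˣ)) q).2).congr fun x => ?_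
    rw [classSum, finsum_eq_sum_of_fintype]
    exact Finset.sum_congr rfl fun q _ => D.part_eq_ser W a r q _
  · rw [hcongr Z, finsum_eq_sum_of_fintype]
    refine (HasZero.sum fun q : D.Xi a (r' : (FIE E)ˣ) =>
      hZ' _ ((hgen _).2 (Quotient.out (s := D.genSetoid a (r' : (FIE E)ˣ)) q).2)).congr fun x => ?_
    rw [classSum, finsum_eq_sum_of_fintype]
    exact Finset.sum_congr rfl fun q _ => D.part_eq_ser W a r' q _

/-- A split prime off a finite set with `chi P' ≠ chi P`. -/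
theorem exists_split_prime {n : ℕ} (hn : 0 < n) :
    ∃ P : Ideal (𝓞 E), P.IsMaximal ∧ P ⊔ D.f = ⊤ ∧ (n : 𝓞 E) ∉ P ∧
      D.conjId (D.conjId P) = P ∧ D.chi P * D.chi (D.conjId P) = 1 ∧ D.chi P ^ 2 ≠ 1 := by
  have hn0 : Ideal.span {(n : 𝓞 E)} * D.f ≠ 0 := mul_ne_zero
    (fun h => Nat.cast_ne_zero.2 hn.ne' (Ideal.span_singleton_eq_bot.1 h)) D.f_ne_bot
  obtain ⟨P, hPS, hP2⟩ := D.separated _ (Ideal.finite_factors hn0)
  have hdvd : ∀ I : Ideal (𝓞 E), I ∣ Ideal.span {(n : 𝓞 E)} * D.f → ¬ I ≤ P.asIdeal :=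
    fun I hI hle => hPS ((Ideal.dvd_iff_le.2 hle).trans hI)
  have hnf : ¬ D.f ≤ P.asIdeal := hdvd _ (dvd_mul_left _ _)
  have hmax : P.asIdeal.IsMaximal := P.isMaximal
  refine ⟨P.asIdeal, hmax, hmax.out.2 _ (lt_of_le_not_ge le_sup_left fun h => hnf
    (le_sup_right.trans h)), fun h => hdvd _ (dvd_mul_right _ _)
      ((Ideal.span_singleton_le_iff_mem _).2 h), ?_, ?_, hP2⟩
  · rw [conjId, conjId, Ideal.map_map]
    conv_rhs => rw [← Ideal.map_id P.asIdeal]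
    congr 1
    exact RingHom.ext fun x => D.conjO_conjO x
  haveI : (P.asIdeal.comap (algebraMap (𝓞 M) (𝓞 E))).IsPrime := inferInstance
  let v : HeightOneSpectrum (𝓞 M) := ⟨P.asIdeal.comap (algebraMap (𝓞 M) (𝓞 E)), inferInstance,
    fun h => P.ne_bot (Ideal.eq_bot_of_comap_eq_bot h)⟩
  have hv : ¬ D.nf ≤ v.asIdeal := fun h => hnf (Ideal.map_le_iff_le_comap.2 h)
  have hle : v.asIdeal.map (algebraMap (𝓞 M) (𝓞 E)) ≤ P.asIdeal := Ideal.map_comap_le
  rcases D.places v hv with ⟨P₁, P₂, -, hmap, hc, hchi⟩ | ⟨P₁, hmap, hchi⟩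
  · rw [hmap] at hle
    have hc' : D.conjId P₁.asIdeal = P₂.asIdeal := hc
    rcases P.isPrime.mul_le.1 hle with h | h
    · rw [← P₁.isMaximal.eq_of_le P.isPrime.ne_top h, hc', hchi]
    · rw [← P₂.isMaximal.eq_of_le P.isPrime.ne_top h]
      conv_lhs => rw [← hc']
      rw [conjId, conjId, Ideal.map_map, show ((D.conjO : 𝓞 E →+* 𝓞 E).comp
        (D.conjO : 𝓞 E →+* 𝓞 E)) = RingHom.id _ from RingHom.ext fun x => D.conjO_conjO x,
        Ideal.map_id, ← conjId, hc', mul_comm, hchi]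
  · rw [hmap] at hle
    exact absurd (by rw [← P₁.isMaximal.eq_of_le P.isPrime.ne_top hle, hchi, neg_one_sq]) hP2

/-- The zero coefficient at a finite cusp vanishes. -/
theorem hasZero_theta_twX (hW : D.IsWeight W) {R : D.Cl → D.primeGroup} (hR : D.IsReps R)
    (a : (FIM M)ˣ) (τ : M) : HasZero D.toQuad (fun x => D.theta W R a (twX τ x)) 0 := by
  classical
  haveI := Fintype.ofFinite D.Cl
  obtain ⟨n, hn, hnI⟩ := exists_nat_mul_le_one (spanSingleton (𝓞 M)⁰ τ * ((a⁻¹ : (FIM M)ˣ) : FIM M))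
  have hnτ : spanSingleton (𝓞 M)⁰ τ * spanSingleton (𝓞 M)⁰ (n : M) ≤ (a : FIM M) := by
    have h := mul_le_mul' hnI (le_refl (a : FIM M))
    rwa [one_mul, mul_assoc, mul_assoc, Units.inv_mul, mul_one, mul_comm] at h
  obtain ⟨P, hmax, hP, hnP, hcc, hchi, hchi2⟩ := D.exists_split_prime hn
  haveI := hmax
  set P' := D.conjId P with hP'def
  haveI : P'.IsMaximal := Ideal.map_isMaximal_of_equiv D.conjO
  have hP' : P' ⊔ D.f = ⊤ := D.conjId_sup hP
  have hnP' : (n : 𝓞 E) ∉ P' := fun h => by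
    obtain ⟨y, hy, he⟩ := (Ideal.mem_map_iff_of_surjective (D.conjO : 𝓞 E →+* 𝓞 E)
      D.conjO.surjective).1 h
    rw [← map_natCast (D.conjO : 𝓞 E →+* 𝓞 E) n] at he
    exact hnP (D.conjO.injective he ▸ hy)
  have hcard : Nat.card (𝓞 E ⧸ P) = Nat.card (𝓞 E ⧸ P') :=
    Nat.card_congr (Ideal.quotientEquiv P P' D.conjO rfl).toEquiv
  set u : D.primeGroup := ⟨D.unitI P' hP', D.unitI_mem P' hP'⟩ *
    ⟨D.unitI P hP, D.unitI_mem P hP⟩⁻¹ with hu
  set c₀ : D.Cl := QuotientGroup.mk u with hc₀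
  have hr : ∀ r : D.primeGroup,
      ((r * u : D.primeGroup) : (FIE E)ˣ) * D.unitI P hP = (r : (FIE E)ˣ) * D.unitI P' hP' :=
    fun r => by
      show (r : (FIE E)ˣ) * (D.unitI P' hP' * (D.unitI P hP)⁻¹) * _ = _
      rw [mul_assoc, inv_mul_cancel_right]
  choose Z hZ hZ' using fun c : D.Cl => D.exists_zero_pair hW.toIsTorusWeight a τ hn hnτ P P' hP
    hP' hcard hnP hnP' rfl hcc (R c) (R c * u) (hr _)
  let R' : D.Cl → D.primeGroup := fun c => R (c * c₀⁻¹) * u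
  have hR' : D.IsReps R' := fun c => by
    show (QuotientGroup.mk (R (c * c₀⁻¹) * u) : D.Cl) = c
    rw [QuotientGroup.mk_mul, hR, ← hc₀, inv_mul_cancel_right]
  have h1 : HasZero D.toQuad (fun x => D.theta W R a (twX τ x))
      (∑ c, (D.chiCl c)⁻¹ * Z c) :=
    (HasZero.sum fun c => (hZ c).const_mul (D.chiCl c)⁻¹).congr fun x => D.theta_eq_sum W R a _
  have h2 : HasZero D.toQuad (fun x => D.theta W R' a (twX τ x))
      ((D.chiCl c₀)⁻¹ * ∑ c, (D.chiCl c)⁻¹ * Z c) := by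
    refine ((HasZero.sum fun c => (hZ' c).const_mul (D.chiCl c)⁻¹).const_mul
      (D.chiCl c₀)⁻¹).congr fun x => ?_
    rw [D.theta_eq_sum, ← Equiv.sum_comp (Equiv.mulRight c₀), Finset.mul_sum]
    refine Finset.sum_congr rfl fun c _ => ?_
    simp only [Equiv.coe_mulRight, R', mul_inv_cancel_right, D.chiCl_mul, _root_.mul_inv]
    ring
  rw [D.theta_eq_of_reps hW hR' hR a] at h2
  have he := h1.unique h2
  have hne : D.chiCl c₀ ≠ 1 := by
    rw [D.chiCl_spec hP' hP c₀ rfl, Ne, div_eq_one_iff_eq (D.chi_ne_zero hP)]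
    intro h
    rw [h, ← sq] at hchi
    exact hchi2 hchi
  suffices h0 : ∑ c, (D.chiCl c)⁻¹ * Z c = 0 by rwa [h0] at h1
  refine (mul_left_eq_self₀.1 he.symm).resolve_left fun h => hne ?_
  rwa [_root_.inv_eq_one] at h

end Data

end FLTAgent.LT.ThetaM
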