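import Fermat.Agent.LT.ThetaM.Series

/-!
# Finite sums of theta series and their zero coefficient

`HasZero Q G Z`: `G` is a finite sum of series whose zero vectors contribute `Z · Π t`.  Then `Z` is
the mean over boxes of translations, and `G` is bounded on `t ≥ c` if `Z = 0`.
-/

set_option autoImplicit false
set_option linter.style.haveILetI false
set_option linter.unusedSectionVars false

noncomputable section

namespace FLTAgent.LT.ThetaM

open NumberField IsDedekindDomain MeasureTheory Complex Module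
open scoped Real nonZeroDivisors

variable {M E : Type} [Field M] [NumberField M] [Field E] [NumberField E] [Algebra M E]
variable {Q : Quad M E} [IsTotallyComplex M]

/-- One series. -/
structure Piece (Q : Quad M E) where
  ξ : M
  ξ_ne : ξ ≠ 0
  L : (FractionalIdeal (𝓞 E)⁰ E)ˣ
  β : E
  coef : Latt L → ℂ
  B : ℝ
  hB : ∀ v, ‖coef v‖ ≤ B
  W : (InfinitePlace M → ℝ) → ℝ
  hW : IsTorusWeight W

/-- The value. -/
def Piece.val (P : Piece Q) (x : Xinf M) : ℂ := ser Q P.W P.ξ P.L P.β P.coef x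

open Classical in
/-- The coefficients of the zero vector. -/
def Piece.coef₀ (P : Piece Q) (v : Latt P.L) : ℂ := if P.β + (v : E) = 0 then P.coef v else 0

/-- The zero coefficient. -/
def Piece.zero (P : Piece Q) : ℂ := ((∫ s, P.W s : ℝ) : ℂ) * ∑' v, P.coef₀ v

theorem Piece.coef₀_mul_termW (P : Piece Q) (x : Xinf M) (v : Latt P.L) :
    P.coef₀ v * termW Q P.W P.ξ x (P.β + v) =
      (((∫ s, P.W s : ℝ) : ℂ) * P.coef₀ v) * ∏ w, (((x w).2 : ℝ) : ℂ) := by
  unfold Piece.coef₀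
  split_ifs with h
  · rw [h, termW_zero]; ring
  · simp

theorem tsum_coef₀_mul_termW (P : Piece Q) (x : Xinf M) :
    ∑' v, P.coef₀ v * termW Q P.W P.ξ x (P.β + v) = P.zero * ∏ w, (((x w).2 : ℝ) : ℂ) := by
  simp only [P.coef₀_mul_termW, tsum_mul_right, tsum_mul_left, Piece.zero]

theorem continuous_translate_box (m : ℕ) (x : Xinf M) :
    Continuous fun y : RS.Idx M → ℝ => translate (boxVec m y) x := by
  refine continuous_pi fun w => ?_
  show Continuous fun y : RS.Idx M → ℝ => ((x w).1 + boxVec m y w, (x w).2)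
  exact (continuous_const.add
    ((continuous_apply w).comp (RS.continuous_boxVec m))).prodMk continuous_const

variable (Q) in
/-- A finite sum of series with the given zero coefficient. -/
def HasZero (G : Xinf M → ℂ) (Z : ℂ) : Prop :=
  ∃ (n : ℕ) (P : Fin n → Piece Q), (∀ x, G x = ∑ i, (P i).val x) ∧ ∑ i, (P i).zero = Z

theorem HasZero.of_fintype {ι : Type*} [Fintype ι] {G : Xinf M → ℂ} {Z : ℂ} (P : ι → Piece Q)
    (hG : ∀ x, G x = ∑ i, (P i).val x) (hZ : ∑ i, (P i).zero = Z) : HasZero Q G Z :=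
  ⟨Fintype.card ι, fun i => P ((Fintype.equivFin ι).symm i),
    fun x => (hG x).trans ((Fintype.equivFin ι).symm.sum_comp fun i => (P i).val x).symm,
    ((Fintype.equivFin ι).symm.sum_comp fun i => (P i).zero).trans hZ⟩

theorem HasZero.of_piece (P : Piece Q) : HasZero Q P.val P.zero :=
  ⟨1, fun _ => P, fun x => by simp, by simp⟩

theorem HasZero.sum {ι : Type*} [Fintype ι] {G : ι → Xinf M → ℂ} {Z : ι → ℂ}
    (h : ∀ i, HasZero Q (G i) (Z i)) : HasZero Q (fun x => ∑ i, G i x) (∑ i, Z i) := by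
  classical
  choose n P hG hZ using h
  refine HasZero.of_fintype (ι := Σ i, Fin (n i)) (fun p => P p.1 p.2) (fun x => ?_) ?_
  · simp only [Fintype.sum_sigma, hG]
  · simp only [Fintype.sum_sigma, hZ]

theorem HasZero.congr {G G' : Xinf M → ℂ} {Z : ℂ} (h : HasZero Q G Z) (he : ∀ x, G' x = G x) :
    HasZero Q G' Z := by
  obtain ⟨n, P, hG, hZ⟩ := h
  exact ⟨n, P, fun x => (he x).trans (hG x), hZ⟩

theorem HasZero.const_mul {G : Xinf M → ℂ} {Z : ℂ} (h : HasZero Q G Z) (a : ℂ) :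
    HasZero Q (fun x => a * G x) (a * Z) := by
  obtain ⟨n, P, hG, hZ⟩ := h
  refine ⟨n, fun i =>
    { P i with
      coef := fun v => a * (P i).coef v
      B := ‖a‖ * (P i).B
      hB := fun v => by rw [norm_mul]; exact mul_le_mul_of_nonneg_left ((P i).hB v) (norm_nonneg a) },
    fun x => ?_, ?_⟩
  · show a * G x = _
    rw [hG, Finset.mul_sum]
    refine Finset.sum_congr rfl fun i _ => ?_
    simp only [Piece.val, ser, ← tsum_mul_left, mul_assoc]
  · rw [← hZ, Finset.mul_sum]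
    refine Finset.sum_congr rfl fun i _ => ?_
    simp only [Piece.zero, Piece.coef₀, ← mul_ite_zero, tsum_mul_left]
    ring

/-- The zero coefficient is the mean over boxes. -/
theorem HasZero.exists_mean {G : Xinf M → ℂ} {Z : ℂ} (h : HasZero Q G Z) :
    ∃ m₀ : ℕ, 0 < m₀ ∧ ∀ m : ℕ, 0 < m → m₀ ∣ m → ∀ x : Xinf M,
      ∫ y in RS.boxSet (RS.Idx M), G (translate (boxVec m y) x) =
        Z * ∏ w, (((x w).2 : ℝ) : ℂ) := by
  classical
  obtain ⟨n, P, hG, hZ⟩ := h
  choose m₁ hm₁ hdual using fun i => exists_dual_modulus Q (P i).ξ (P i).L (P i).β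
  refine ⟨∏ i, m₁ i, Finset.prod_pos fun i _ => hm₁ i, fun m hm hdvd x => ?_⟩
  simp only [hG]
  rw [integral_finsetSum _ fun i _ => ?_, ← hZ, Finset.sum_mul]
  · refine Finset.sum_congr rfl fun i _ => ?_
    rw [show (∫ y in RS.boxSet (RS.Idx M), (P i).val (translate (boxVec m y) x)) = _ from
      integral_box_ser Q (P i).ξ (P i).L (P i).β (P i).hW (P i).ξ_ne (P i).hB hm
        (hdual i m ((Finset.dvd_prod_of_mem m₁ (Finset.mem_univ i)).trans hdvd)) x,
      ← tsum_coef₀_mul_termW]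
    rfl
  · refine (((continuous_ser Q (P i).ξ (P i).L (P i).β (P i).hW (P i).ξ_ne (P i).hB).comp
      (continuous_translate_box m x)).continuousOn.integrableOn_compact
      (K := Set.univ.pi fun _ => Set.Icc (0 : ℝ) 1)
      (isCompact_univ_pi fun _ => isCompact_Icc)).mono_set ?_
    exact Set.pi_mono fun _ _ => Set.Ico_subset_Icc_self

theorem HasZero.unique {G : Xinf M → ℂ} {Z Z' : ℂ} (h : HasZero Q G Z) (h' : HasZero Q G Z') :
    Z = Z' := by
  obtain ⟨a, ha, hma⟩ := h.exists_mean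
  obtain ⟨b, hb, hmb⟩ := h'.exists_mean
  let x : Xinf M := fun _ => (0, ⟨1, Set.mem_Ioi.2 one_pos⟩)
  have e := (hma (a * b) (Nat.mul_pos ha hb) (dvd_mul_right a b) x).symm.trans
    (hmb (a * b) (Nat.mul_pos ha hb) (dvd_mul_left b a) x)
  simpa [x] using e

/-- Boundedness when the zero coefficient vanishes. -/
theorem HasZero.exists_bound {G : Xinf M → ℂ} (h : HasZero Q G 0) {c : ℝ} (hc : 0 < c) :
    ∃ C : ℝ, ∀ x : Xinf M, (∀ w, c ≤ (x w).2) → ‖G x‖ ≤ C := by
  classical
  obtain ⟨n, P, hG, hZ⟩ := h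
  have hB₀ : ∀ i v, ‖(P i).coef₀ v‖ ≤ |(P i).B| := fun i v => by
    unfold Piece.coef₀
    split_ifs
    · exact ((P i).hB v).trans (le_abs_self _)
    · simp
  have hB₁ : ∀ i v, ‖(P i).coef v - (P i).coef₀ v‖ ≤ |(P i).B| := fun i v => by
    unfold Piece.coef₀
    split_ifs
    · simp
    · simpa using ((P i).hB v).trans (le_abs_self _)
  choose C hC using fun i => exists_ser_bound Q (P i).ξ (P i).L (P i).β (P i).hW (P i).ξ_ne
    (coef := fun v => (P i).coef v - (P i).coef₀ v) (hB₁ i)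
    (fun v hv => by simp [Piece.coef₀, hv]) hc
  refine ⟨∑ i, C i, fun x hx => ?_⟩
  have hsplit : ∀ i, (P i).val x =
      ser Q (P i).W (P i).ξ (P i).L (P i).β (fun v => (P i).coef v - (P i).coef₀ v) x +
        (P i).zero * ∏ w, (((x w).2 : ℝ) : ℂ) := fun i => by
    rw [← tsum_coef₀_mul_termW, Piece.val, ser, ser,
      ← (summable_ser Q (P i).ξ (P i).L (P i).β (P i).hW (P i).ξ_ne (hB₁ i) x).tsum_add
        (summable_ser Q (P i).ξ (P i).L (P i).β (P i).hW (P i).ξ_ne (hB₀ i) x)]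
    exact tsum_congr fun v => by ring
  simp only [hG, hsplit, Finset.sum_add_distrib, ← Finset.sum_mul, hZ, zero_mul, add_zero]
  exact (norm_sum_le _ _).trans (Finset.sum_le_sum fun i _ => hC i x hx)

/-! ### Affine maps -/

/-- An upper triangular matrix at all places. -/
def affX (α : M) (hα : α ≠ 0) (b : M) (x : Xinf M) : Xinf M := fun w =>
  (w.embedding α * (x w).1 + w.embedding b,
    ⟨‖w.embedding α‖ * (x w).2, mul_pos (norm_pos_iff.2 ((map_ne_zero _).2 hα)) (x w).2.2⟩)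

theorem affX_translate (α : M) (hα : α ≠ 0) (b : M) (z : InfinitePlace M → ℂ) (x : Xinf M) :
    affX α hα b (translate z x) = translate (fun w => w.embedding α * z w) (affX α hα b x) :=
  funext fun w => Prod.ext (by simp [affX, translate]; ring) rfl

theorem sTerm_aff (p : H3) {a : ℂ} (ha : a ≠ 0) (s : ℝ) (y : ℂ × ℂ) :
    sTerm (a * p.1, ⟨‖a‖ * p.2, mul_pos (norm_pos_iff.2 ha) p.2.2⟩)
        ((Real.exp s : ℂ) * y.1, (Real.exp (-s) : ℂ) * y.2) =
      (‖a‖ : ℂ) * sTerm p ((Real.exp (s + Real.log ‖a‖ / 2) : ℂ) * y.1,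
        (Real.exp (-(s + Real.log ‖a‖ / 2)) : ℂ) * (a * y.2)) := by
  obtain ⟨u, hu⟩ : ∃ u, u = Real.exp (Real.log ‖a‖ / 2) := ⟨_, rfl⟩
  have hu0 : 0 < u := hu ▸ Real.exp_pos _
  have hu2 : u ^ 2 = ‖a‖ := by
    rw [hu, ← Real.exp_nat_mul, show ((2 : ℕ) : ℝ) * (Real.log ‖a‖ / 2) = Real.log ‖a‖ by push_cast; ring,
      Real.exp_log (norm_pos_iff.2 ha)]
  rw [neg_add, Real.exp_add, Real.exp_add, Real.exp_neg (Real.log ‖a‖ / 2), ← hu]
  simp only [sTerm, norm_mul, Complex.norm_real, Real.norm_eq_abs]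
  simp only [abs_of_pos hu0, abs_of_pos (inv_pos.2 hu0), abs_mul, Real.abs_exp]
  have e1 : ((Real.exp s * u : ℝ) : ℂ) * y.1 * (((Real.exp (-s) * u⁻¹ : ℝ) : ℂ) * (a * y.2)) =
      a * ((Real.exp s : ℂ) * y.1 * ((Real.exp (-s) : ℂ) * y.2)) := by
    have : (u : ℂ) ≠ 0 := ofReal_ne_zero.2 hu0.ne'
    push_cast
    field_simp
  have e2 : ‖a‖ * (p.2 : ℝ) * ((Real.exp s * ‖y.1‖) ^ 2 + (Real.exp (-s) * ‖y.2‖) ^ 2) =
      (p.2 : ℝ) * ((Real.exp s * u * ‖y.1‖) ^ 2 + (Real.exp (-s) * u⁻¹ * (‖a‖ * ‖y.2‖)) ^ 2) := by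
    rw [← hu2]; field_simp
  rw [e1, show a * p.1 * ((Real.exp s : ℂ) * y.1 * ((Real.exp (-s) : ℂ) * y.2)) =
    p.1 * (a * ((Real.exp s : ℂ) * y.1 * ((Real.exp (-s) : ℂ) * y.2))) by ring]
  simp only [mul_assoc (2 * π)]
  rw [e2]
  push_cast
  ring

theorem term_affX (α : M) (hα : α ≠ 0) (b : M) (ξ : M) (x : Xinf M) (s : InfinitePlace M → ℝ)
    (v : E) :
    term Q ξ (affX α hα b x) s v = ((∏ w : InfinitePlace M, ‖w.embedding α‖ : ℝ) : ℂ) *
      psi (b * qF ξ v) *
        term Q (α * ξ) x (fun w => s w + Real.log ‖w.embedding α‖ / 2) v := by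
  have e : affX α hα b x = translate (RS.embF b) (affX α hα 0 x) :=
    funext fun w => Prod.ext (by simp [affX, translate, RS.embF]) rfl
  rw [e, term_translate, mul_right_comm, mul_comm (term _ _ _ _ _)]
  rw [term, term, kerS, kerS, mul_comm _ (psi _), ← mul_assoc, mul_assoc (psi _)]
  congr 1
  rw [Complex.ofReal_prod, ← Finset.prod_mul_distrib]
  refine Finset.prod_congr rfl fun w _ => ?_
  have h := sTerm_aff (x w) ((map_ne_zero w.embedding).2 hα) (s w) (embY Q ξ v w)
  simp only [affX, map_zero, add_zero]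
  rw [h]
  congr 2
  refine Prod.ext rfl ?_
  show _ * (w.embedding α * (w.embedding ξ * _)) = _ * (w.embedding (α * ξ) * _)
  rw [map_mul, mul_assoc (w.embedding α)]

theorem HasZero.comp_affX {G : Xinf M → ℂ} {Z : ℂ} (h : HasZero Q G Z) (α : M) (hα : α ≠ 0)
    (b : M) : HasZero Q (fun x => G (affX α hα b x))
      (((∏ w : InfinitePlace M, ‖w.embedding α‖ : ℝ) : ℂ) * Z) := by
  classical
  obtain ⟨n, P, hG, hZ⟩ := h
  set l : InfinitePlace M → ℝ := fun w => Real.log ‖w.embedding α‖ / 2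
  set N : ℂ := ((∏ w : InfinitePlace M, ‖w.embedding α‖ : ℝ) : ℂ)
  let P' : Fin n → Piece Q := fun i =>
    { ξ := α * (P i).ξ
      ξ_ne := mul_ne_zero hα (P i).ξ_ne
      L := (P i).L
      β := (P i).β
      coef := fun v => N * psi (b * qF (P i).ξ ((P i).β + (v : E))) * (P i).coef v
      B := ‖N‖ * (P i).B
      hB := fun v => by
        rw [norm_mul, norm_mul, norm_psi, mul_one]
        exact mul_le_mul_of_nonneg_left ((P i).hB v) (norm_nonneg _)
      W := fun s => (P i).W (s - l)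
      hW := ⟨(P i).hW.cont.comp (by fun_prop),
        (P i).hW.supp.comp_homeomorph (Homeomorph.subRight l), fun s => (P i).hW.nonneg _⟩ }
  refine ⟨n, P', fun x => ?_, ?_⟩
  · show G (affX α hα b x) = _
    rw [hG]
    refine Finset.sum_congr rfl fun i _ => tsum_congr fun v => ?_
    show _ = N * psi _ * (P i).coef v * ∫ s, _
    rw [termW, ← integral_sub_right_eq_self (fun s => ((P i).W s : ℂ) *
      term Q (P i).ξ (affX α hα b x) s _) l, ← integral_const_mul, ← integral_const_mul]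
    refine integral_congr_ae (Filter.Eventually.of_forall fun s => ?_)
    simp only [P', term_affX]
    rw [show (fun w => (s - l) w + Real.log ‖w.embedding α‖ / 2) = s from
      funext fun w => sub_add_cancel (s w) (l w)]
    ring
  · rw [← hZ, Finset.mul_sum]
    refine Finset.sum_congr rfl fun i _ => ?_
    have h0 : ∀ v : Latt (P i).L, (P' i).coef₀ v = N * (P i).coef₀ v := fun v => by
      simp only [Piece.coef₀, P', mul_ite, mul_zero]
      split_ifs with hv
      · rw [hv, show qF (E := E) (P i).ξ 0 = 0 by simp [qF, nM], mul_zero, psi_zero, mul_one]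
      · rfl
    show ((∫ s, (P i).W (s - l) : ℝ) : ℂ) * ∑' v : Latt (P i).L, (P' i).coef₀ v = _
    rw [integral_sub_right_eq_self (fun s => (P i).W s) l, tsum_congr h0, tsum_mul_left, Piece.zero]
    ring

end FLTAgent.LT.ThetaM
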